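import Fermat.Agent.S22_helper94.PolySlash
import Mathlib.GroupTheory.Finiteness
import Mathlib.LinearAlgebra.Dual.Defs
import Mathlib.RingTheory.Noetherian.Basic
import Mathlib.RingTheory.Adjoin.Basic
import Mathlib.RingTheory.PrincipalIdealDomain
import Mathlib.Analysis.Complex.Basic

set_option autoImplicit false

namespace Fermat.Agent.S22_helper94

open Polynomial

/-- The integer matrix of `polySlash w a b c d` on coefficient vectors. -/
noncomputable def slashCoeff (w : ℕ) (a b c d : ℤ) (j i : ℕ) : ℤ :=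
  (slashMonomial w a b c d i).coeff j

theorem coeff_polySlash_intCast (w : ℕ) (a b c d : ℤ) (P : ℂ[X]) (j : ℕ) :
    (polySlash w (a : ℂ) (b : ℂ) (c : ℂ) (d : ℂ) P).coeff j =
      ∑ i ∈ Finset.range (w + 1), (slashCoeff w a b c d j i : ℂ) * P.coeff i := by
  rw [coeff_polySlash]
  refine Finset.sum_congr rfl fun i _ => ?_
  have h := map_slashMonomial (Int.castRingHom ℂ) w a b c d i
  simp only [eq_intCast] at h
  rw [← h, coeff_map, eq_intCast, slashCoeff]

variable {V : Type*} [AddCommGroup V] [Module ℂ V] {G : Type*}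

section defs

/-- The coefficient functional `f ↦ (p γ f).coeff j`. -/
noncomputable def coeffFunctional (p : G → V →ₗ[ℂ] ℂ[X]) (γ : G) (j : ℕ) : Module.Dual ℂ V :=
  (lcoeff ℂ j).comp (p γ)

@[simp] theorem coeffFunctional_apply (p : G → V →ₗ[ℂ] ℂ[X]) (γ : G) (j : ℕ) (f : V) :
    coeffFunctional p γ j f = (p γ f).coeff j := rfl

/-- The period lattice: the `ℤ`-span of all coefficient functionals. -/
noncomputable def periodLattice (w : ℕ) (p : G → V →ₗ[ℂ] ℂ[X]) :
    Submodule ℤ (Module.Dual ℂ V) :=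
  Submodule.span ℤ {l | ∃ γ : G, ∃ j : ℕ, j ≤ w ∧ l = coeffFunctional p γ j}

theorem coeffFunctional_mem_periodLattice (w : ℕ) (p : G → V →ₗ[ℂ] ℂ[X]) (γ : G) {j : ℕ}
    (hj : j ≤ w) : coeffFunctional p γ j ∈ periodLattice w p :=
  Submodule.subset_span ⟨γ, j, hj, rfl⟩

/-- Coefficient functionals of `polySlash` of an integer matrix applied to `p γ`. -/
theorem coeffFunctional_polySlash_mem {w : ℕ} {p : G → V →ₗ[ℂ] ℂ[X]}
    (Λ : Submodule ℤ (Module.Dual ℂ V))
    (γ : G) (hγ : ∀ i, i ≤ w → coeffFunctional p γ i ∈ Λ) (a b c d : ℤ) (j : ℕ) :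
    (lcoeff ℂ j).comp ((polySlash w (a : ℂ) (b : ℂ) (c : ℂ) (d : ℂ)).comp (p γ)) ∈ Λ := by
  have : (lcoeff ℂ j).comp ((polySlash w (a : ℂ) (b : ℂ) (c : ℂ) (d : ℂ)).comp (p γ)) =
      ∑ i ∈ Finset.range (w + 1), slashCoeff w a b c d j i • coeffFunctional p γ i := by
    ext f
    simp only [LinearMap.comp_apply, lcoeff_apply, LinearMap.sum_apply, LinearMap.smul_apply,
      coeffFunctional_apply, zsmul_eq_mul]
    exact coeff_polySlash_intCast w a b c d (p γ f) j
  rw [this]
  refine Submodule.sum_mem _ fun i hi => Submodule.smul_mem _ _ ?_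
  exact hγ i (Nat.lt_succ_iff.mp (Finset.mem_range.mp hi))

/-- Stability of the period lattice under (the transpose of) an operator `T` satisfying an
integral Hecke-type formula. -/
theorem periodLattice_comp_mem {w : ℕ} {p : G → V →ₗ[ℂ] ℂ[X]} (T : V →ₗ[ℂ] V)
    (hT : ∀ γ : G, ∃ (ι : Type) (_ : Fintype ι) (γ' : ι → G) (a b c d : ι → ℤ),
      ∀ f, p γ (T f) =
        ∑ x, polySlash w (a x : ℂ) (b x : ℂ) (c x : ℂ) (d x : ℂ) (p (γ' x) f))
    (l : Module.Dual ℂ V) (hl : l ∈ periodLattice w p) :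
    l.comp T ∈ periodLattice w p := by
  induction hl using Submodule.span_induction with
  | mem l hl =>
    obtain ⟨γ, j, hj, rfl⟩ := hl
    obtain ⟨ι, _, γ', a, b, c, d, hf⟩ := hT γ
    have : (coeffFunctional p γ j).comp T =
        ∑ x, (lcoeff ℂ j).comp ((polySlash w (a x : ℂ) (b x : ℂ) (c x : ℂ) (d x : ℂ)).comp
          (p (γ' x))) := by
      ext f
      simp [hf f, finsetSum_coeff]
    rw [this]
    refine Submodule.sum_mem _ fun x _ => ?_
    exact coeffFunctional_polySlash_mem _ (γ' x)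
      (fun i hi => coeffFunctional_mem_periodLattice w p (γ' x) hi) _ _ _ _ j
  | zero => simp
  | add l₁ l₂ _ _ h₁ h₂ =>
    rw [LinearMap.add_comp]
    exact Submodule.add_mem _ h₁ h₂
  | smul n l _ h =>
    rw [LinearMap.smul_comp]
    exact Submodule.smul_mem _ _ h

end defs

variable [Group G]

/-- A polynomial-valued (degree `≤ w`) cocycle on `G`, linear in `f : V`, for the integral
slash action through integer matrices `A γ`. -/
structure IsPolyCocycle (w : ℕ) (A : G → Matrix (Fin 2) (Fin 2) ℤ) (p : G → V →ₗ[ℂ] ℂ[X]) :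
    Prop where
  natDegree_le : ∀ γ f, (p γ f).natDegree ≤ w
  map_one : p 1 = 0
  map_mul : ∀ γ δ f, p (γ * δ) f =
    polySlash w (A δ 0 0 : ℂ) (A δ 0 1 : ℂ) (A δ 1 0 : ℂ) (A δ 1 1 : ℂ) (p γ f) + p δ f

theorem periodLattice_fg {w : ℕ} {A : G → Matrix (Fin 2) (Fin 2) ℤ} {p : G → V →ₗ[ℂ] ℂ[X]}
    (hG : Group.FG G) (h : IsPolyCocycle w A p) : (periodLattice w p).FG := by
  classical
  obtain ⟨S, hS, hSfin⟩ := Monoid.fg_iff.mp (Group.fg_iff_monoid_fg.mp hG)
  set gens : Set (Module.Dual ℂ V) :=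
    (fun x : G × ℕ => coeffFunctional p x.1 x.2) '' (S ×ˢ (Finset.range (w + 1) : Set ℕ))
    with hgens
  have hfin : gens.Finite := (hSfin.prod (Finset.finite_toSet _)).image _
  set Λ₀ : Submodule ℤ (Module.Dual ℂ V) := Submodule.span ℤ gens with hΛ₀
  have hΛ₀fg : Λ₀.FG := Submodule.fg_span hfin
  have key : ∀ γ : G, ∀ j, j ≤ w → coeffFunctional p γ j ∈ Λ₀ := by
    intro γ
    have hγ : γ ∈ Submonoid.closure S := by rw [hS]; trivial
    induction hγ using Submonoid.closure_induction with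
    | mem s hs =>
      intro j hj
      exact Submodule.subset_span ⟨(s, j), ⟨hs, by simpa using Nat.lt_succ_of_le hj⟩, rfl⟩
    | one =>
      intro j _
      have : coeffFunctional p 1 j = 0 := by
        ext f
        simp [h.map_one]
      rw [this]
      exact Submodule.zero_mem _
    | mul γ δ _ _ ihγ ihδ =>
      intro j hj
      have : coeffFunctional p (γ * δ) j =
          (lcoeff ℂ j).comp ((polySlash w (A δ 0 0 : ℂ) (A δ 0 1 : ℂ) (A δ 1 0 : ℂ)
            (A δ 1 1 : ℂ)).comp (p γ)) + coeffFunctional p δ j := by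
        ext f
        simp [h.map_mul γ δ f]
      rw [this]
      exact Submodule.add_mem _ (coeffFunctional_polySlash_mem Λ₀ γ ihγ _ _ _ _ j) (ihδ j hj)
  have hle : periodLattice w p ≤ Λ₀ := by
    refine Submodule.span_le.mpr ?_
    rintro l ⟨γ, j, hj, rfl⟩
    exact key γ j hj
  have hge : Λ₀ ≤ periodLattice w p := by
    refine Submodule.span_le.mpr ?_
    rintro l ⟨⟨γ, j⟩, ⟨_, hj⟩, rfl⟩
    exact coeffFunctional_mem_periodLattice w p γ
      (Nat.lt_succ_iff.mp (by simpa using hj))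
  rw [le_antisymm hle hge]
  exact hΛ₀fg

/-- The period lattice detects vanishing of all `p γ f`. -/
theorem eq_zero_of_forall_periodLattice {w : ℕ} {A : G → Matrix (Fin 2) (Fin 2) ℤ}
    {p : G → V →ₗ[ℂ] ℂ[X]} (h : IsPolyCocycle w A p) (f : V)
    (hf : ∀ l ∈ periodLattice w p, l f = 0) (γ : G) : p γ f = 0 := by
  ext j
  rw [coeff_zero]
  by_cases hj : j ≤ w
  · exact hf _ (coeffFunctional_mem_periodLattice w p γ hj)
  · exact coeff_eq_zero_of_natDegree_lt (lt_of_le_of_lt (h.natDegree_le γ f) (not_le.mp hj))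

end Fermat.Agent.S22_helper94
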