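import Mathlib.LinearAlgebra.Dual.Defs
import Mathlib.RingTheory.Noetherian.Basic
import Mathlib.RingTheory.Adjoin.Basic
import Mathlib.RingTheory.PrincipalIdealDomain
import Mathlib.Algebra.EuclideanDomain.Int
import Mathlib.RingTheory.Finiteness.Basic
import Mathlib.Analysis.Complex.Basic

set_option autoImplicit false

namespace Fermat.Agent.S22_helper94

variable {V : Type*} [AddCommGroup V] [Module ℂ V]

/-- If a finitely generated lattice `Λ` of functionals on `V` separates the points of `V` and is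
stable under precomposition with every element of `𝒢 ⊆ End V`, then `ℤ[𝒢]` is a finite
`ℤ`-module. -/
theorem finite_adjoin_of_dual_lattice (𝒢 : Set (Module.End ℂ V))
    (Λ : Submodule ℤ (Module.Dual ℂ V)) (hfg : Λ.FG)
    (hstab : ∀ T ∈ 𝒢, ∀ l ∈ Λ, l ∘ₗ T ∈ Λ)
    (hsep : ∀ v : V, (∀ l ∈ Λ, l v = 0) → v = 0) :
    Module.Finite ℤ (Algebra.adjoin ℤ 𝒢) := by
  classical
  have hstab' : ∀ T ∈ Algebra.adjoin ℤ 𝒢, ∀ l ∈ Λ, l ∘ₗ T ∈ Λ := by
    intro T hT
    induction hT using Algebra.adjoin_induction with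
    | mem T hT => exact hstab T hT
    | algebraMap n =>
      intro l hl
      have : l ∘ₗ (algebraMap ℤ (Module.End ℂ V) n) = n • l := by
        ext v
        simp
      rw [this]
      exact Submodule.smul_mem _ _ hl
    | add T₁ T₂ _ _ h₁ h₂ =>
      intro l hl
      rw [LinearMap.comp_add]
      exact Submodule.add_mem _ (h₁ l hl) (h₂ l hl)
    | mul T₁ T₂ _ _ h₁ h₂ =>
      intro l hl
      have : l ∘ₗ (T₁ * T₂) = (l ∘ₗ T₁) ∘ₗ T₂ := rfl
      rw [this]
      exact h₂ _ (h₁ l hl)
  obtain ⟨n, s, hs⟩ := Submodule.fg_iff_exists_fin_generating_family.mp hfg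
  have hsmem : ∀ i, s i ∈ Λ := fun i => hs ▸ Submodule.subset_span (Set.mem_range_self i)
  have hfin : Module.Finite ℤ Λ := Module.Finite.iff_fg.mpr hfg
  have hnoeth : IsNoetherian ℤ Λ := isNoetherian_of_isNoetherianRing_of_finite ℤ Λ
  let Φ : (Algebra.adjoin ℤ 𝒢) →ₗ[ℤ] (Fin n → Λ) :=
    { toFun := fun T i => ⟨s i ∘ₗ (T : Module.End ℂ V), hstab' T T.2 (s i) (hsmem i)⟩
      map_add' := fun T₁ T₂ => by
        ext i v
        simp [LinearMap.comp_add]
      map_smul' := fun m T => by
        ext i v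
        simp }
  have hΦ : Function.Injective Φ := by
    rw [← LinearMap.ker_eq_bot, LinearMap.ker_eq_bot']
    intro T hT
    have h1 : ∀ i, s i ∘ₗ (T : Module.End ℂ V) = 0 := fun i => by
      have := congrFun hT i
      exact congrArg Subtype.val this
    have h2 : ∀ l ∈ Λ, l ∘ₗ (T : Module.End ℂ V) = 0 := by
      intro l hl
      rw [← hs] at hl
      induction hl using Submodule.span_induction with
      | mem l hl => obtain ⟨i, rfl⟩ := hl; exact h1 i
      | zero => simp
      | add l₁ l₂ _ _ h₁ h₂ => rw [LinearMap.add_comp, h₁, h₂, add_zero]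
      | smul m l _ h => rw [LinearMap.smul_comp, h, smul_zero]
    apply Subtype.ext
    ext v
    refine hsep _ fun l hl => ?_
    have := LinearMap.congr_fun (h2 l hl) v
    simpa using this
  exact Module.Finite.of_injective Φ hΦ

end Fermat.Agent.S22_helper94
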