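import Fermat.Agent.S22_helper94.CocycleLattice
import Fermat.Agent.S22_helper94.DualLattice

set_option autoImplicit false

namespace Fermat.Agent.S22_helper94

open Polynomial

variable {V : Type*} [AddCommGroup V] [Module ℂ V] {G : Type*} [Group G]

/-- Abstract form of the period-lattice argument: a finitely generated group `G`, a polynomial
cocycle `p` (degree `≤ w`, linear in `f : V`) which separates the points of `V`, and a set `𝒢`
of operators each satisfying an integral Hecke-type formula. Then `ℤ[𝒢]` is a finite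
`ℤ`-module. -/
theorem module_finite_adjoin_of_polyCocycle {w : ℕ} {A : G → Matrix (Fin 2) (Fin 2) ℤ}
    {p : G → V →ₗ[ℂ] ℂ[X]} (hG : Group.FG G) (h : IsPolyCocycle w A p)
    (𝒢 : Set (Module.End ℂ V))
    (hHecke : ∀ T ∈ 𝒢, ∀ γ : G, ∃ (ι : Type) (_ : Fintype ι) (γ' : ι → G) (a b c d : ι → ℤ),
      ∀ f, p γ (T f) =
        ∑ x, polySlash w (a x : ℂ) (b x : ℂ) (c x : ℂ) (d x : ℂ) (p (γ' x) f))
    (hsep : ∀ f : V, (∀ γ, p γ f = 0) → f = 0) :
    Module.Finite ℤ (Algebra.adjoin ℤ 𝒢) :=
  finite_adjoin_of_dual_lattice 𝒢 (periodLattice w p) (periodLattice_fg hG h)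
    (fun T hT l hl => periodLattice_comp_mem T (hHecke T hT) l hl)
    (fun f hf => hsep f (eq_zero_of_forall_periodLattice h f hf))

end Fermat.Agent.S22_helper94
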