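import Fermat.Agent.S22_helper94.PolySlash
import Fermat.Prelude.Sol.S_ModularForm_heckeT_slash_eq_self_of_mem_Gamma0
import Mathlib.NumberTheory.ModularForms.CongruenceSubgroups

set_option autoImplicit false

namespace Fermat.Agent.S22_helper94

open UpperHalfPlane ModularForm Polynomial Matrix.SpecialLinearGroup
open scoped MatrixGroups ModularForm
open P2MW.S_ModularForm_heckeT_slash_eq_self_of_mem_Gamma0.ModularForm.HeckeSlashInvariance

section slashLemmas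

variable {G : Type*} [Group G] [SlashAction ℤ G (ℍ → ℂ)]

theorem slash_sub' (k : ℤ) (g : G) (a b : ℍ → ℂ) : (a - b) ∣[k] g = a ∣[k] g - b ∣[k] g := by
  rw [sub_eq_add_neg, SlashAction.add_slash, SlashAction.neg_slash, ← sub_eq_add_neg]

end slashLemmas

/-- Polynomial functions on the upper half plane determine the polynomial. -/
theorem polyFun_injective' {P Q : ℂ[X]}
    (h : (fun z : ℍ => P.eval (z : ℂ)) = fun z : ℍ => Q.eval (z : ℂ)) : P = Q := by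
  rw [← sub_eq_zero]
  refine Polynomial.eq_zero_of_infinite_isRoot _ ?_
  have hinf : (Set.range fun n : ℕ => ((n : ℂ) + Complex.I)).Infinite := by
    refine Set.infinite_range_of_injective fun m n hmn => ?_
    have := congrArg Complex.re hmn
    simpa using this
  refine hinf.mono ?_
  rintro _ ⟨n, rfl⟩
  have hpos : 0 < ((n : ℂ) + Complex.I).im := by simp
  have := congrFun h ⟨(n : ℂ) + Complex.I, hpos⟩
  simp only [IsRoot, eval_sub, sub_eq_zero]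
  exact this

section cosets

variable {N p : ℕ}

theorem exists_heckeRep_family [Fact p.Prime] (hpN : ¬ p ∣ N) (γ : SL(2, ℤ))
    (hγ : γ ∈ CongruenceSubgroup.Gamma0 N) :
    ∃ γ' : OnePoint (ZMod p) → SL(2, ℤ), (∀ x, γ' x ∈ CongruenceSubgroup.Gamma0 N) ∧
      ∀ x, heckeRep p x * mapGL ℝ γ = mapGL ℝ (γ' x) * heckeRep p (redMatrix p γ • x) := by
  have hcN : (N : ℤ) ∣ γ 1 0 :=
    (ZMod.intCast_zmod_eq_zero_iff_dvd _ _).mp (CongruenceSubgroup.Gamma0_mem.mp hγ)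
  choose γ' h1 h2 using heckeRep_mul hpN γ hcN
  exact ⟨γ', fun x => CongruenceSubgroup.Gamma0_mem.mpr
    ((ZMod.intCast_zmod_eq_zero_iff_dvd _ _).mpr (h1 x)), h2⟩

theorem exists_heckeMatrix_family [NeZero p] (hpN : p ∣ N) (γ : SL(2, ℤ))
    (hγ : γ ∈ CongruenceSubgroup.Gamma0 N) :
    ∃ (γ' : ZMod p → SL(2, ℤ)) (σ : Equiv.Perm (ZMod p)),
      (∀ x, γ' x ∈ CongruenceSubgroup.Gamma0 N) ∧
      ∀ x, heckeMatrix p x.val * mapGL ℝ γ = mapGL ℝ (γ' x) * heckeMatrix p (σ x).val := by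
  have hcN : (N : ℤ) ∣ γ 1 0 :=
    (ZMod.intCast_zmod_eq_zero_iff_dvd _ _).mp (CongruenceSubgroup.Gamma0_mem.mp hγ)
  have hc : (p : ℤ) ∣ γ 1 0 := (Int.natCast_dvd_natCast.mpr hpN).trans hcN
  choose γ' h1 h2 using heckeMatrix_mul_of_dvd γ hc
  refine ⟨γ', affinePerm γ ((ZMod.intCast_zmod_eq_zero_iff_dvd _ _).mpr hc), fun x => ?_, h2⟩
  rw [CongruenceSubgroup.Gamma0_mem, h1 x]
  push_cast
  rw [CongruenceSubgroup.Gamma0_mem.mp hγ, mul_zero]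

end cosets

section functionLevel

variable {p : ℕ}

/-- Function-level period relation for a Hecke-type sum over a finite family of matrices
permuted by right multiplication by `γ`. -/
theorem sum_slash_period {ι : Type*} [Fintype ι] (κ : ℤ) (E : ℍ → ℂ) (α : ι → GL (Fin 2) ℝ)
    (γ : SL(2, ℤ)) (γ' : ι → SL(2, ℤ)) (σ : Equiv.Perm ι)
    (h : ∀ x, α x * mapGL ℝ γ = mapGL ℝ (γ' x) * α (σ x)) :
    (∑ x, E ∣[κ] α x) ∣[κ] (mapGL ℝ γ) - ∑ x, E ∣[κ] α x =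
      ∑ x, (E ∣[κ] (mapGL ℝ (γ' x)) - E) ∣[κ] α (σ x) := by
  have h1 : (∑ x, E ∣[κ] α x) ∣[κ] (mapGL ℝ γ) =
      ∑ x, (E ∣[κ] (mapGL ℝ (γ' x))) ∣[κ] α (σ x) := by
    rw [SlashAction.sum_slash]
    refine Finset.sum_congr rfl fun x _ => ?_
    rw [← SlashAction.slash_mul, h x, SlashAction.slash_mul]
  have h2 : ∑ x, E ∣[κ] α x = ∑ x, E ∣[κ] α (σ x) :=
    (Equiv.sum_comp σ fun x => E ∣[κ] α x).symm
  rw [h1, h2, ← Finset.sum_sub_distrib]
  refine Finset.sum_congr rfl fun x _ => ?_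
  rw [slash_sub']

end functionLevel

section polyLevel

variable {p : ℕ}

theorem smul_polyFun_slash_heckeMatrix (hp : p ≠ 0) (w : ℕ) (j : ℕ) {Q : ℂ[X]}
    (hQ : Q.natDegree ≤ w) :
    ((p : ℂ) ^ (w + 1)) • ((fun z : ℍ => Q.eval (z : ℂ)) ∣[-(w : ℤ)] heckeMatrix p j) =
      fun z : ℍ => (polySlash w ((1 : ℤ) : ℂ) ((j : ℤ) : ℂ) ((0 : ℤ) : ℂ) ((p : ℤ) : ℂ) Q).eval
        (z : ℂ) := by
  have hdet : (heckeMatrix p j).val.det = p := by
    rw [← Matrix.GeneralLinearGroup.val_det_apply]; exact det_heckeMatrix hp j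
  have hpos : 0 < (heckeMatrix p j).val.det := by
    rw [hdet]; exact_mod_cast Nat.pos_of_ne_zero hp
  have hpC : (p : ℂ) ≠ 0 := by exact_mod_cast hp
  rw [polyFun_slash w _ hpos hQ, smul_smul, hdet]
  have h1 : (p : ℂ) ^ (w + 1) * ((p : ℝ) : ℂ) ^ (-(w : ℤ) - 1) = 1 := by
    rw [Complex.ofReal_natCast, show (-(w : ℤ) - 1) = -((w + 1 : ℕ) : ℤ) by push_cast; ring,
      zpow_neg, zpow_natCast, mul_inv_cancel₀ (pow_ne_zero _ hpC)]
  rw [h1, one_smul]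
  funext z
  simp [val_heckeMatrix hp]

theorem smul_polyFun_slash_heckeDiagMatrix (hp : p ≠ 0) (w : ℕ) {Q : ℂ[X]}
    (hQ : Q.natDegree ≤ w) :
    ((p : ℂ) ^ (w + 1)) • ((fun z : ℍ => Q.eval (z : ℂ)) ∣[-(w : ℤ)] heckeDiagMatrix p) =
      fun z : ℍ => (polySlash w ((p : ℤ) : ℂ) ((0 : ℤ) : ℂ) ((0 : ℤ) : ℂ) ((1 : ℤ) : ℂ) Q).eval
        (z : ℂ) := by
  have hdet : (heckeDiagMatrix p).val.det = p := by
    rw [← Matrix.GeneralLinearGroup.val_det_apply]; exact det_heckeDiagMatrix hp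
  have hpos : 0 < (heckeDiagMatrix p).val.det := by
    rw [hdet]; exact_mod_cast Nat.pos_of_ne_zero hp
  have hpC : (p : ℂ) ≠ 0 := by exact_mod_cast hp
  rw [polyFun_slash w _ hpos hQ, smul_smul, hdet]
  have h1 : (p : ℂ) ^ (w + 1) * ((p : ℝ) : ℂ) ^ (-(w : ℤ) - 1) = 1 := by
    rw [Complex.ofReal_natCast, show (-(w : ℤ) - 1) = -((w + 1 : ℕ) : ℤ) by push_cast; ring,
      zpow_neg, zpow_natCast, mul_inv_cancel₀ (pow_ne_zero _ hpC)]
  rw [h1, one_smul]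
  funext z
  simp [val_heckeDiagMatrix hp]

/-- Integer entries `(a, b, d)` of `heckeRep p y` (the lower left entry is `0`). -/
def heckeRepA (p : ℕ) (y : OnePoint (ZMod p)) : ℤ := y.elim (p : ℤ) fun _ => 1

/-- See `heckeRepA`. -/
def heckeRepB (p : ℕ) (y : OnePoint (ZMod p)) : ℤ := y.elim 0 fun j => (j.val : ℤ)

/-- See `heckeRepA`. -/
def heckeRepD (p : ℕ) (y : OnePoint (ZMod p)) : ℤ := y.elim 1 fun _ => (p : ℤ)

theorem smul_polyFun_slash_heckeRep (hp : p ≠ 0) (w : ℕ) (y : OnePoint (ZMod p)) {Q : ℂ[X]}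
    (hQ : Q.natDegree ≤ w) :
    ((p : ℂ) ^ (w + 1)) • ((fun z : ℍ => Q.eval (z : ℂ)) ∣[-(w : ℤ)] heckeRep p y) =
      fun z : ℍ => (polySlash w (heckeRepA p y : ℂ) (heckeRepB p y : ℂ) ((0 : ℤ) : ℂ)
        (heckeRepD p y : ℂ) Q).eval (z : ℂ) := by
  induction y using OnePoint.rec with
  | infty => exact smul_polyFun_slash_heckeDiagMatrix hp w hQ
  | coe j => exact smul_polyFun_slash_heckeMatrix hp w j.val hQ

theorem smul_slash_mapGL (c : ℂ) (F : ℍ → ℂ) (κ : ℤ) (γ : SL(2, ℤ)) :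
    (c • F) ∣[κ] (mapGL ℝ γ) = c • F ∣[κ] (mapGL ℝ γ) :=
  ModularForm.SL_smul_slash κ γ F c

variable {N : ℕ} {V : Type*} [AddCommGroup V] [Module ℂ V]

/-- The integral Hecke formula for the period polynomials, `U_p` case (`p ∣ N`). -/
theorem hecke_formula_U [NeZero p] (hpN : p ∣ N) (w : ℕ) (T : V →ₗ[ℂ] V)
    (E : V → ℍ → ℂ) (pc : CongruenceSubgroup.Gamma0 N → V →ₗ[ℂ] ℂ[X])
    (hdeg : ∀ γ f, (pc γ f).natDegree ≤ w)
    (hpc : ∀ (γ : CongruenceSubgroup.Gamma0 N) f,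
      (fun z : ℍ => (pc γ f).eval (z : ℂ)) = E f ∣[-(w : ℤ)] (mapGL ℝ (γ : SL(2, ℤ))) - E f)
    (hE : ∀ f, E (T f) = ((p : ℂ) ^ (w + 1)) • heckeU (-(w : ℤ)) p (E f))
    (γ : CongruenceSubgroup.Gamma0 N) :
    ∃ (ι : Type) (_ : Fintype ι) (γ' : ι → CongruenceSubgroup.Gamma0 N) (a b c d : ι → ℤ),
      ∀ f, pc γ (T f) =
        ∑ x, polySlash w (a x : ℂ) (b x : ℂ) (c x : ℂ) (d x : ℂ) (pc (γ' x) f) := by
  obtain ⟨γ', σ, hγ', h⟩ := exists_heckeMatrix_family hpN γ.1 γ.2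
  refine ⟨ZMod p, inferInstance, fun x => ⟨γ' x, hγ' x⟩, fun _ => 1,
    fun x => ((σ x).val : ℤ), fun _ => 0, fun _ => (p : ℤ), fun f => ?_⟩
  apply polyFun_injective'
  rw [hpc γ (T f), hE f, smul_slash_mapGL, ← smul_sub, heckeU_eq_sum_zmod,
    sum_slash_period (-(w : ℤ)) (E f) (fun x : ZMod p => heckeMatrix p x.val) γ.1 γ' σ h,
    Finset.smul_sum]
  funext z
  rw [eval_finsetSum, Finset.sum_apply]
  refine Finset.sum_congr rfl fun x _ => ?_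
  have := hpc ⟨γ' x, hγ' x⟩ f
  rw [← this, smul_polyFun_slash_heckeMatrix (NeZero.ne p) w (σ x).val (hdeg _ f)]

/-- The integral Hecke formula for the period polynomials, `T_p` case (`p ∤ N` prime). -/
theorem hecke_formula_T (hp : p.Prime) (hpN : ¬ p ∣ N) (w : ℕ) (T : V →ₗ[ℂ] V)
    (E : V → ℍ → ℂ) (pc : CongruenceSubgroup.Gamma0 N → V →ₗ[ℂ] ℂ[X])
    (hdeg : ∀ γ f, (pc γ f).natDegree ≤ w)
    (hpc : ∀ (γ : CongruenceSubgroup.Gamma0 N) f,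
      (fun z : ℍ => (pc γ f).eval (z : ℂ)) = E f ∣[-(w : ℤ)] (mapGL ℝ (γ : SL(2, ℤ))) - E f)
    (hE : ∀ f, E (T f) = ((p : ℂ) ^ (w + 1)) • heckeT (-(w : ℤ)) p (E f))
    (γ : CongruenceSubgroup.Gamma0 N) :
    ∃ (ι : Type) (_ : Fintype ι) (γ' : ι → CongruenceSubgroup.Gamma0 N) (a b c d : ι → ℤ),
      ∀ f, pc γ (T f) =
        ∑ x, polySlash w (a x : ℂ) (b x : ℂ) (c x : ℂ) (d x : ℂ) (pc (γ' x) f) := by
  have : Fact p.Prime := ⟨hp⟩
  have : NeZero p := ⟨hp.ne_zero⟩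
  obtain ⟨γ', hγ', h⟩ := exists_heckeRep_family hpN γ.1 γ.2
  set σ : Equiv.Perm (OnePoint (ZMod p)) := MulAction.toPerm (redMatrix p γ.1) with hσ
  refine ⟨OnePoint (ZMod p), inferInstance, fun x => ⟨γ' x, hγ' x⟩,
    fun x => heckeRepA p (σ x), fun x => heckeRepB p (σ x), fun _ => 0,
    fun x => heckeRepD p (σ x), fun f => ?_⟩
  apply polyFun_injective'
  rw [hpc γ (T f), hE f, smul_slash_mapGL, ← smul_sub, heckeT_eq_sum_onePoint,
    sum_slash_period (-(w : ℤ)) (E f) (fun x : OnePoint (ZMod p) => heckeRep p x) γ.1 γ' σ h,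
    Finset.smul_sum]
  funext z
  rw [eval_finsetSum, Finset.sum_apply]
  refine Finset.sum_congr rfl fun x _ => ?_
  have := hpc ⟨γ' x, hγ' x⟩ f
  rw [← this, smul_polyFun_slash_heckeRep hp.ne_zero w (σ x) (hdeg _ f)]

end polyLevel

end Fermat.Agent.S22_helper94
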