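import Mathlib.Algebra.Polynomial.Eval.Degree
import Mathlib.Algebra.Polynomial.Degree.Lemmas
import Mathlib.Algebra.Polynomial.Basic
import Mathlib.Algebra.Polynomial.AlgebraMap
import Mathlib.NumberTheory.ModularForms.SlashActions

set_option autoImplicit false

namespace Fermat.Agent.S22_helper94

open Polynomial

section Ring

variable {R : Type*} [CommRing R]

/-- `(aX+b)^i (cX+d)^(w-i)`. -/
noncomputable def slashMonomial (w : ℕ) (a b c d : R) (i : ℕ) : R[X] :=
  (C a * X + C b) ^ i * (C c * X + C d) ^ (w - i)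

theorem natDegree_slashMonomial_le (w : ℕ) (a b c d : R) {i : ℕ} (hi : i ≤ w) :
    (slashMonomial w a b c d i).natDegree ≤ w := by
  unfold slashMonomial
  have h1 : ((C a * X + C b) ^ i).natDegree ≤ i := by
    refine (natDegree_pow_le).trans ?_
    have : (C a * X + C b).natDegree ≤ 1 := natDegree_linear_le
    calc i * (C a * X + C b).natDegree ≤ i * 1 := Nat.mul_le_mul_left _ this
      _ = i := mul_one i
  have h2 : ((C c * X + C d) ^ (w - i)).natDegree ≤ w - i := by
    refine (natDegree_pow_le).trans ?_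
    have : (C c * X + C d).natDegree ≤ 1 := natDegree_linear_le
    calc (w - i) * (C c * X + C d).natDegree ≤ (w - i) * 1 := Nat.mul_le_mul_left _ this
      _ = w - i := mul_one _
  calc ((C a * X + C b) ^ i * (C c * X + C d) ^ (w - i)).natDegree
      ≤ ((C a * X + C b) ^ i).natDegree + ((C c * X + C d) ^ (w - i)).natDegree :=
        natDegree_mul_le
    _ ≤ i + (w - i) := add_le_add h1 h2
    _ = w := Nat.add_sub_cancel' hi

theorem map_slashMonomial {S : Type*} [CommRing S] (φ : R →+* S) (w : ℕ) (a b c d : R) (i : ℕ) :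
    (slashMonomial w a b c d i).map φ = slashMonomial w (φ a) (φ b) (φ c) (φ d) i := by
  simp [slashMonomial, Polynomial.map_mul, Polynomial.map_pow, Polynomial.map_add]

/-- The integral slash action on polynomials of degree `≤ w`:
`P ↦ ∑_{i ≤ w} P_i (aX+b)^i (cX+d)^(w-i)`. -/
noncomputable def polySlash (w : ℕ) (a b c d : R) : R[X] →ₗ[R] R[X] :=
  ∑ i ∈ Finset.range (w + 1),
    (LinearMap.toSpanSingleton R R[X] (slashMonomial w a b c d i)).comp (lcoeff R i)

theorem polySlash_apply (w : ℕ) (a b c d : R) (P : R[X]) :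
    polySlash w a b c d P =
      ∑ i ∈ Finset.range (w + 1), P.coeff i • slashMonomial w a b c d i := by
  simp [polySlash, LinearMap.sum_apply, LinearMap.toSpanSingleton_apply]

theorem natDegree_polySlash_le (w : ℕ) (a b c d : R) (P : R[X]) :
    (polySlash w a b c d P).natDegree ≤ w := by
  rw [polySlash_apply]
  refine natDegree_sum_le_of_forall_le _ _ fun i hi => ?_
  refine (natDegree_smul_le _ _).trans ?_
  exact natDegree_slashMonomial_le w a b c d (Nat.lt_succ_iff.mp (Finset.mem_range.mp hi))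

theorem coeff_polySlash (w : ℕ) (a b c d : R) (P : R[X]) (j : ℕ) :
    (polySlash w a b c d P).coeff j =
      ∑ i ∈ Finset.range (w + 1), (slashMonomial w a b c d i).coeff j * P.coeff i := by
  rw [polySlash_apply, finsetSum_coeff]
  refine Finset.sum_congr rfl fun i _ => ?_
  rw [coeff_smul, smul_eq_mul, mul_comm]

theorem map_polySlash {S : Type*} [CommRing S] (φ : R →+* S) (w : ℕ) (a b c d : R) (P : R[X]) :
    (polySlash w a b c d P).map φ = polySlash w (φ a) (φ b) (φ c) (φ d) (P.map φ) := by
  rw [polySlash_apply, polySlash_apply, Polynomial.map_sum]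
  refine Finset.sum_congr rfl fun i _ => ?_
  rw [Polynomial.map_smul, map_slashMonomial, coeff_map]

end Ring

section Field

variable {K : Type*} [Field K]

theorem eval_slashMonomial (w : ℕ) (a b c d z : K) (i : ℕ) :
    (slashMonomial w a b c d i).eval z = (a * z + b) ^ i * (c * z + d) ^ (w - i) := by
  simp [slashMonomial]

theorem eval_polySlash (w : ℕ) (a b c d : K) {P : K[X]} (hP : P.natDegree ≤ w) (z : K)
    (hz : c * z + d ≠ 0) :
    (polySlash w a b c d P).eval z = (c * z + d) ^ w * P.eval ((a * z + b) / (c * z + d)) := by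
  rw [polySlash_apply, eval_finsetSum,
    eval_eq_sum_range' (Nat.lt_succ_of_le hP) ((a * z + b) / (c * z + d)), Finset.mul_sum]
  refine Finset.sum_congr rfl fun i hi => ?_
  have hi' : i ≤ w := Nat.lt_succ_iff.mp (Finset.mem_range.mp hi)
  rw [eval_smul, eval_slashMonomial, smul_eq_mul, div_pow]
  have : (c * z + d) ^ w = (c * z + d) ^ i * (c * z + d) ^ (w - i) := by
    rw [← pow_add, Nat.add_sub_cancel' hi']
  rw [this]
  have h2 : (a * z + b) ^ i / (c * z + d) ^ i * (c * z + d) ^ i = (a * z + b) ^ i :=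
    div_mul_cancel₀ _ (pow_ne_zero i hz)
  calc P.coeff i * ((a * z + b) ^ i * (c * z + d) ^ (w - i))
      = P.coeff i * ((a * z + b) ^ i / (c * z + d) ^ i * (c * z + d) ^ i) *
          (c * z + d) ^ (w - i) := by rw [h2]; ring
    _ = (c * z + d) ^ i * (c * z + d) ^ (w - i) *
          (P.coeff i * ((a * z + b) ^ i / (c * z + d) ^ i)) := by ring

end Field

section UpperHalfPlane

open UpperHalfPlane ModularForm
open scoped MatrixGroups ModularForm

/-- Mathlib's weight `-w` slash action on polynomial functions of degree `≤ w` is, up to the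
determinant factor, the integral action `polySlash`. -/
theorem polyFun_slash (w : ℕ) (g : GL (Fin 2) ℝ) (hg : 0 < g.val.det) {P : ℂ[X]}
    (hP : P.natDegree ≤ w) :
    (fun z : ℍ => P.eval (z : ℂ)) ∣[(-(w : ℤ))] g =
      ((g.val.det : ℂ) ^ (-(w : ℤ) - 1)) •
        (fun z : ℍ => (polySlash w ((g 0 0 : ℝ) : ℂ) ((g 0 1 : ℝ) : ℂ) ((g 1 0 : ℝ) : ℂ)
          ((g 1 1 : ℝ) : ℂ) P).eval (z : ℂ)) := by
  ext τ
  have hσ : UpperHalfPlane.σ g = .refl ℝ ℂ := by
    rw [UpperHalfPlane.σ, if_pos (by rwa [Matrix.GeneralLinearGroup.val_det_apply])]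
  have hden : (g 1 0 : ℂ) * (τ : ℂ) + (g 1 1 : ℂ) ≠ 0 := denom_ne_zero g τ
  rw [ModularForm.slash_apply, hσ, Pi.smul_apply, smul_eq_mul,
    eval_polySlash w _ _ _ _ hP (τ : ℂ) hden,
    UpperHalfPlane.coe_smul_of_det_pos (by rwa [Matrix.GeneralLinearGroup.val_det_apply])]
  simp only [ContinuousAlgEquiv.refl_apply, UpperHalfPlane.num, UpperHalfPlane.denom,
    Matrix.GeneralLinearGroup.val_det_apply, abs_of_pos hg, neg_neg, zpow_natCast]
  ring

end UpperHalfPlane

end Fermat.Agent.S22_helper94
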