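import Fermat.Agent.S22_helper94.Assembly
import Fermat.Agent.S22_helper94.Hecke
import Fermat.Prelude.Def_CuspForm_HeckeAlgebra

set_option autoImplicit false

namespace Fermat.Agent.S22_helper94

open UpperHalfPlane ModularForm Polynomial Matrix.SpecialLinearGroup
open scoped MatrixGroups ModularForm

theorem polyFun_slash_mapGL (w : ℕ) (δ : SL(2, ℤ)) {P : ℂ[X]} (hP : P.natDegree ≤ w) :
    (fun z : ℍ => P.eval (z : ℂ)) ∣[-(w : ℤ)] (mapGL ℝ δ) =
      fun z : ℍ => (polySlash w ((δ 0 0 : ℤ) : ℂ) ((δ 0 1 : ℤ) : ℂ) ((δ 1 0 : ℤ) : ℂ)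
        ((δ 1 1 : ℤ) : ℂ) P).eval (z : ℂ) := by
  have hdet : (mapGL ℝ δ : GL (Fin 2) ℝ).val.det = 1 := by
    rw [← Matrix.GeneralLinearGroup.val_det_apply]
    simp
  rw [polyFun_slash w _ (by rw [hdet]; exact one_pos) hP, hdet]
  simp

variable {N : ℕ}

/-- The period polynomials `pc γ f` of an "Eichler integral" `E f` form a polynomial cocycle. -/
theorem isPolyCocycle_of_eichler (w : ℕ) {V : Type*} [AddCommGroup V] [Module ℂ V]
    (E : V → ℍ → ℂ) (pc : CongruenceSubgroup.Gamma0 N → V →ₗ[ℂ] ℂ[X])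
    (hdeg : ∀ γ f, (pc γ f).natDegree ≤ w)
    (hpc : ∀ (γ : CongruenceSubgroup.Gamma0 N) f,
      (fun z : ℍ => (pc γ f).eval (z : ℂ)) =
        E f ∣[-(w : ℤ)] (mapGL ℝ (γ : SL(2, ℤ))) - E f) :
    IsPolyCocycle w
      (fun γ : CongruenceSubgroup.Gamma0 N => ((γ : SL(2, ℤ)) : Matrix (Fin 2) (Fin 2) ℤ))
      pc where
  natDegree_le := hdeg
  map_one := by
    ext1 f
    apply polyFun_injective'
    rw [hpc 1 f]
    simp
    rfl
  map_mul := by
    intro γ δ f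
    apply polyFun_injective'
    rw [hpc (γ * δ) f, Subgroup.coe_mul, map_mul, SlashAction.slash_mul]
    have h1 := polyFun_slash_mapGL w (δ : SL(2, ℤ)) (hdeg γ f)
    rw [hpc γ f, slash_sub'] at h1
    funext z
    have h2 := congrFun h1 z
    have h3 := congrFun (hpc δ f) z
    simp only [Pi.sub_apply, eval_add] at h2 h3 ⊢
    rw [← h2, h3]
    ring

variable [NeZero N]

/-- Reduction of S22 (weight `k`, `w = k - 2`) to the existence of Eichler integrals with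
their three properties: polynomial periods, Hecke compatibility, separation. -/
theorem module_finite_heckeAlgebra_of_eichler (w : ℕ) (k : ℤ) (S : Set ℕ)
    (hfg : Group.FG (CongruenceSubgroup.Gamma0 N))
    (E : CuspForm (CongruenceSubgroup.Gamma0 N) k → ℍ → ℂ)
    (pc : CongruenceSubgroup.Gamma0 N → CuspForm (CongruenceSubgroup.Gamma0 N) k →ₗ[ℂ] ℂ[X])
    (hdeg : ∀ γ f, (pc γ f).natDegree ≤ w)
    (hpc : ∀ (γ : CongruenceSubgroup.Gamma0 N) f,
      (fun z : ℍ => (pc γ f).eval (z : ℂ)) =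
        E f ∣[-(w : ℤ)] (mapGL ℝ (γ : SL(2, ℤ))) - E f)
    (hET : ∀ (p : ℕ) (hp : p.Prime) (hpN : ¬ p ∣ N) f,
      E (CuspForm.heckeTLin k hp hpN f) = ((p : ℂ) ^ (w + 1)) • heckeT (-(w : ℤ)) p (E f))
    (hEU : ∀ (p : ℕ) (hpN : p ∣ N), p.Prime → ∀ f,
      E (CuspForm.heckeULin k hpN f) = ((p : ℂ) ^ (w + 1)) • heckeU (-(w : ℤ)) p (E f))
    (hsep : ∀ f, (∀ γ, pc γ f = 0) → f = 0) :
    Module.Finite ℤ (CuspForm.heckeAlgebra N k S) := by
  refine module_finite_adjoin_of_polyCocycle hfg (isPolyCocycle_of_eichler w E pc hdeg hpc)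
    (CuspForm.heckeGenerators N k S) ?_ hsep
  rintro T (⟨ℓ, hℓ, hℓN, -, rfl⟩ | ⟨q, hqN, hq, -, rfl⟩) γ
  · exact hecke_formula_T hℓ hℓN w _ E pc hdeg hpc (hET ℓ hℓ hℓN) γ
  · have : NeZero q := ⟨hq.ne_zero⟩
    exact hecke_formula_U hqN w _ E pc hdeg hpc (hEU q hqN hq) γ

end Fermat.Agent.S22_helper94
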